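/-
GATE-Z (S15) / (LOC-r), node FLATSUB, part 1 (helper94): **products of function orders and of
torsor-order pairs**, generic frame (`R` a PID, `F = Frac R ⊆ K`, `G` acting on `K`).

* `coact_iff_T2`, `diff_iff_T2`: the COACTION / DIFFERENCE fields of
  `GZ/LocR/TorsVocab.IsStableTorsorOrder` as inclusions of subalgebras (twins of
  `GS/ClosureW.delta_iff_T2`);
* `finite_T2`: `T2 H H'` (image of `H ⊗ H'` in the functions on the product) is a finite module;
* `isStableOrder_prod`: generic-frame port of helper57's `GH/Closure/SubProd.IsDeltaOrder.prod`;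
* `isTorsorOrderPair_prod`: the product of two torsor-order pairs is a torsor-order pair
  (`M₁ × M₂` acting on `X₁ × X₂`, orders `T2 HM₁ HM₂`, `T2 HX₁ HX₂`).
-/
import Mathlib
import Fermat.Agent.GS.ClosureW.Quot
import Fermat.Agent.GZ.LocR.TorsVocab
import Fermat.Agent.GZ.LocR.PushFibre.Push

set_option autoImplicit false
set_option linter.unusedSectionVars false
set_option linter.unusedVariables false

namespace Fermat.Agent.GZ.LocR.FlatSub

open Fermat.Agent.GH.N0 Fermat.Agent.GS.ClosureW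

section T2Forms

variable {R K : Type*} [CommRing R] [Field K] [Algebra R K]
variable {M : Type*} [AddCommGroup M] {X : Type*} [AddTorsor M X]
variable {HM : Subalgebra R (M → K)} {HX : Subalgebra R (X → K)}

/-- the COACTION field as an inclusion of subalgebras. -/
theorem coact_iff_T2 :
    (∀ f ∈ HX, ∃ (n : ℕ) (a : Fin n → HM) (b : Fin n → HX), ∀ (m : M) (x : X),
      f (m +ᵥ x) = ∑ i, (a i : M → K) m * (b i : X → K) x) ↔
    HX ≤ (T2 HM HX).comap (precomp R K (fun q : M × X => q.1 +ᵥ q.2)) := by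
  constructor
  · intro h f hf
    rw [Subalgebra.mem_comap, mem_T2_iff, rep2_iff_fin]
    obtain ⟨n, a, b, hab⟩ := h f hf
    exact ⟨n, a, b, fun m x => hab m x⟩
  · intro h f hf
    have := h hf
    rw [Subalgebra.mem_comap, mem_T2_iff, rep2_iff_fin] at this
    obtain ⟨n, a, b, hab⟩ := this
    exact ⟨n, a, b, fun m x => hab m x⟩

/-- the DIFFERENCE field as an inclusion of subalgebras. -/
theorem diff_iff_T2 :
    (∀ f ∈ HM, ∃ (n : ℕ) (a b : Fin n → HX), ∀ x x' : X,
      f (x -ᵥ x') = ∑ i, (a i : X → K) x * (b i : X → K) x') ↔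
    HM ≤ (T2 HX HX).comap (precomp R K (fun q : X × X => q.1 -ᵥ q.2)) := by
  constructor
  · intro h f hf
    rw [Subalgebra.mem_comap, mem_T2_iff, rep2_iff_fin]
    obtain ⟨n, a, b, hab⟩ := h f hf
    exact ⟨n, a, b, fun x x' => hab x x'⟩
  · intro h f hf
    have := h hf
    rw [Subalgebra.mem_comap, mem_T2_iff, rep2_iff_fin] at this
    obtain ⟨n, a, b, hab⟩ := this
    exact ⟨n, a, b, fun x x' => hab x x'⟩

end T2Forms

section FiniteT2

variable {R K : Type*} [CommRing R] [Field K] [Algebra R K] {X Y : Type*}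

/-- `T2 H H'` is a finite module when `H` and `H'` are. -/
theorem finite_T2 (H : Subalgebra R (X → K)) (H' : Subalgebra R (Y → K))
    [Module.Finite R H] [Module.Finite R H'] : Module.Finite R (T2 H H') := by
  have h1 : Module.Finite R (H.map (precomp R K (Prod.fst : X × Y → X))) := finite_map H _
  have h2 : Module.Finite R (H'.map (precomp R K (Prod.snd : X × Y → Y))) := finite_map H' _
  exact Subalgebra.finite_sup _ _

theorem fst_mem_T2 {H : Subalgebra R (X → K)} {H' : Subalgebra R (Y → K)} {f : X → K}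
    (hf : f ∈ H) : precomp R K (Prod.fst : X × Y → X) f ∈ T2 H H' :=
  (le_sup_left : _ ≤ T2 H H') ⟨f, hf, rfl⟩

theorem snd_mem_T2 {H : Subalgebra R (X → K)} {H' : Subalgebra R (Y → K)} {f : Y → K}
    (hf : f ∈ H') : precomp R K (Prod.snd : X × Y → Y) f ∈ T2 H H' :=
  (le_sup_right : _ ≤ T2 H H') ⟨f, hf, rfl⟩

/-- separation by `T2`. -/
theorem sep_T2 {H : Subalgebra R (X → K)} {H' : Subalgebra R (Y → K)}
    (h₁ : ∀ x y : X, x ≠ y → ∃ f ∈ H, f x ≠ f y) (h₂ : ∀ x y : Y, x ≠ y → ∃ f ∈ H', f x ≠ f y)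
    (p q : X × Y) (hne : p ≠ q) : ∃ Φ ∈ T2 H H', Φ p ≠ Φ q := by
  obtain ⟨x, y⟩ := p
  obtain ⟨x', y'⟩ := q
  by_cases hx : x = x'
  · have hy : y ≠ y' := fun h => hne (by rw [hx, h])
    obtain ⟨f, hf, hfy⟩ := h₂ y y' hy
    exact ⟨_, snd_mem_T2 hf, hfy⟩
  · obtain ⟨f, hf, hfx⟩ := h₁ x x' hx
    exact ⟨_, fst_mem_T2 hf, hfx⟩

end FiniteT2

/-- the product of two actions. -/
def prodAct {G A B : Type*} (a : G → A → A) (b : G → B → B) : G → A × B → A × B :=
  fun σ p => (a σ p.1, b σ p.2)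

@[simp]
theorem prodAct_apply {G A B : Type*} (a : G → A → A) (b : G → B → B) (σ : G) (p : A × B) :
    prodAct a b σ p = (a σ p.1, b σ p.2) := rfl

section EquivT2

variable {R K : Type*} [CommRing R] [Field K] [Algebra R K]
variable {G : Type*} [Group G] [MulSemiringAction G K]
variable {X Y : Type*} {H : Subalgebra R (X → K)} {H' : Subalgebra R (Y → K)}
variable {a : G → X → X} {b : G → Y → Y}

/-- equivariance of `T2`. -/
theorem equivariant_T2 (h₁ : ∀ f ∈ H, ∀ σ x, f (a σ x) = σ • f x)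
    (h₂ : ∀ f ∈ H', ∀ σ x, f (b σ x) = σ • f x) :
    ∀ Φ ∈ T2 H H', ∀ σ p, Φ (prodAct a b σ p) = σ • Φ p := by
  intro Φ hΦ σ p
  obtain ⟨ι, _, u, v, huv⟩ := mem_T2_iff.1 hΦ
  obtain ⟨x, y⟩ := p
  rw [prodAct_apply, huv, huv, Finset.smul_sum]
  refine Finset.sum_congr rfl fun i _ => ?_
  rw [smul_mul', h₁ _ (u i).2, h₂ _ (v i).2]

end EquivT2

section ProdOrder

variable {R : Type*} [CommRing R] [IsDomain R] [IsPrincipalIdealRing R]
variable {F : Type*} [Field F] [Algebra R F] [IsFractionRing R F]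
variable {K : Type*} [Field K] [Algebra F K] [Algebra R K] [IsScalarTower R F K]
variable {G : Type*} [Group G] [MulSemiringAction G K]
variable {M₁ : Type*} [AddCommGroup M₁] [Finite M₁] {M₂ : Type*} [AddCommGroup M₂] [Finite M₂]
variable {act₁ : G → M₁ → M₁} {act₂ : G → M₂ → M₂}
variable {H₁ : Subalgebra R (M₁ → K)} {H₂ : Subalgebra R (M₂ → K)}

/-- **PRODUCT of stable function orders** (generic frame). -/
theorem isStableOrder_prod (h₁ : IsStableOrder F act₁ H₁) (h₂ : IsStableOrder F act₂ H₂) :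
    IsStableOrder F (prodAct act₁ act₂) (T2 H₁ H₂) where
  fixed := h₁.fixed
  act_zero := by
    intro σ
    show (act₁ σ 0, act₂ σ 0) = 0
    rw [h₁.act_zero, h₂.act_zero]
    rfl
  equivariant := equivariant_T2 h₁.equivariant h₂.equivariant
  fg := by
    have := h₁.fg
    have := h₂.fg
    exact finite_T2 H₁ H₂
  sep := sep_T2 h₁.sep h₂.sep
  delta := by
    rw [delta_iff_T2]
    refine sup_le ?_ ?_
    · rintro _ ⟨f, hf, rfl⟩
      rw [Subalgebra.mem_comap, mem_T2_iff]
      obtain ⟨n, a, b, hab⟩ := h₁.delta f hf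
      refine ⟨Fin n, inferInstance,
        fun i => ⟨_, fst_mem_T2 (a i).2⟩, fun i => ⟨_, fst_mem_T2 (b i).2⟩, ?_⟩
      intro p q
      exact hab p.1 q.1
    · rintro _ ⟨f, hf, rfl⟩
      rw [Subalgebra.mem_comap, mem_T2_iff]
      obtain ⟨n, a, b, hab⟩ := h₂.delta f hf
      refine ⟨Fin n, inferInstance,
        fun i => ⟨_, snd_mem_T2 (a i).2⟩, fun i => ⟨_, snd_mem_T2 (b i).2⟩, ?_⟩
      intro p q
      exact hab p.2 q.2

end ProdOrder

section ProdPair

variable {R : Type*} [CommRing R] [IsDomain R] [IsPrincipalIdealRing R]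
variable {F : Type*} [Field F] [Algebra R F] [IsFractionRing R F]
variable {K : Type*} [Field K] [Algebra F K] [Algebra R K] [IsScalarTower R F K]
variable {G : Type*} [Group G] [MulSemiringAction G K]
variable {M₁ : Type*} [AddCommGroup M₁] [Finite M₁] {X₁ : Type*} [AddTorsor M₁ X₁]
variable {M₂ : Type*} [AddCommGroup M₂] [Finite M₂] {X₂ : Type*} [AddTorsor M₂ X₂]
variable {actM₁ : G → M₁ → M₁} {actX₁ : G → X₁ → X₁}
variable {actM₂ : G → M₂ → M₂} {actX₂ : G → X₂ → X₂}
variable {HM₁ : Subalgebra R (M₁ → K)} {HX₁ : Subalgebra R (X₁ → K)}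
variable {HM₂ : Subalgebra R (M₂ → K)} {HX₂ : Subalgebra R (X₂ → K)}

/-- **PRODUCT of torsor-order pairs.** -/
theorem isTorsorOrderPair_prod (P₁ : IsTorsorOrderPair F actM₁ actX₁ HM₁ HX₁)
    (P₂ : IsTorsorOrderPair F actM₂ actX₂ HM₂ HX₂) :
    IsTorsorOrderPair F (prodAct actM₁ actM₂) (prodAct actX₁ actX₂) (T2 HM₁ HM₂) (T2 HX₁ HX₂) where
  group := isStableOrder_prod P₁.group P₂.group
  torsor :=
    { equivariant := equivariant_T2 P₁.torsor.equivariant P₂.torsor.equivariant
      fg := by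
        have := P₁.torsor.fg
        have := P₂.torsor.fg
        exact finite_T2 HX₁ HX₂
      sep := sep_T2 P₁.torsor.sep P₂.torsor.sep
      coact := by
        rw [coact_iff_T2]
        refine sup_le ?_ ?_
        · rintro _ ⟨f, hf, rfl⟩
          rw [Subalgebra.mem_comap, mem_T2_iff]
          obtain ⟨n, a, b, hab⟩ := P₁.torsor.coact f hf
          refine ⟨Fin n, inferInstance,
            fun i => ⟨_, fst_mem_T2 (a i).2⟩, fun i => ⟨_, fst_mem_T2 (b i).2⟩, ?_⟩
          intro m x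
          exact hab m.1 x.1
        · rintro _ ⟨f, hf, rfl⟩
          rw [Subalgebra.mem_comap, mem_T2_iff]
          obtain ⟨n, a, b, hab⟩ := P₂.torsor.coact f hf
          refine ⟨Fin n, inferInstance,
            fun i => ⟨_, snd_mem_T2 (a i).2⟩, fun i => ⟨_, snd_mem_T2 (b i).2⟩, ?_⟩
          intro m x
          exact hab m.2 x.2
      diff := by
        rw [diff_iff_T2]
        refine sup_le ?_ ?_
        · rintro _ ⟨f, hf, rfl⟩
          rw [Subalgebra.mem_comap, mem_T2_iff]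
          obtain ⟨n, a, b, hab⟩ := P₁.torsor.diff f hf
          refine ⟨Fin n, inferInstance,
            fun i => ⟨_, fst_mem_T2 (a i).2⟩, fun i => ⟨_, fst_mem_T2 (b i).2⟩, ?_⟩
          intro x x'
          exact hab x.1 x'.1
        · rintro _ ⟨f, hf, rfl⟩
          rw [Subalgebra.mem_comap, mem_T2_iff]
          obtain ⟨n, a, b, hab⟩ := P₂.torsor.diff f hf
          refine ⟨Fin n, inferInstance,
            fun i => ⟨_, snd_mem_T2 (a i).2⟩, fun i => ⟨_, snd_mem_T2 (b i).2⟩, ?_⟩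
          intro x x'
          exact hab x.2 x'.2 }
  act_vadd := by
    intro σ m x
    show (actX₁ σ (m.1 +ᵥ x.1), actX₂ σ (m.2 +ᵥ x.2)) =
      (actM₁ σ m.1 +ᵥ actX₁ σ x.1, actM₂ σ m.2 +ᵥ actX₂ σ x.2)
    rw [P₁.act_vadd, P₂.act_vadd]

end ProdPair

end Fermat.Agent.GZ.LocR.FlatSub
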