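/-
GATE-Z (S15) / (LOC-r), node FLATSUB, part 2 (helper94): **flat cochains form a subgroup** — the
bridge from helper92's torsor orders (`GZ/LocR/TorsVocab`) to helper90's marked modules
(`GZ/Dev/Marked`: the local condition `Marked.X` must be an `AddSubgroup (G → W)` containing the
coboundaries).

Generic frame (`R` a PID, `F = Frac R ⊆ K` of characteristic `0`, `G` acting on `K`), `M` a finite
commutative group with an additive action `actM` of `G` and a stable function order `HM`.  `M` is a
torsor over itself; for a cochain `x : G → M` the TWISTED action is `twist actM x σ w = actM σ w + x σ`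
(for a cocycle `x` this is the `G`-set of the class of `x`).  `x` is FLAT relative to `HM` when the
twisted `G`-set has a torsor order:  `IsFlat actM HM x := HasTorsorOrder (twist actM x) HM`.

* `isFlat_zero`, `IsFlat.translate` (cohomologous cochains), `isFlat_dCob` (coboundaries),
  `IsFlat.neg`, `IsFlat.add` (Baer sum = product pair + push-out along `+`), `flatSub`;
* functoriality: `isFlat_of_comp_injective` ((b) FIBRE, the preimage condition of a marked short
  exact sequence), `IsFlat.comp_surjective` ((a) PUSH-OUT, the image condition).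
-/
import Mathlib
import Fermat.Agent.GS.ClosureW.Quot
import Fermat.Agent.GZ.LocR.TorsVocab
import Fermat.Agent.GZ.LocR.PushFibre.Push
import Fermat.Agent.GZ.LocR.FlatSub.Prod

set_option autoImplicit false
set_option linter.unusedSectionVars false
set_option linter.unusedVariables false

namespace Fermat.Agent.GZ.LocR.FlatSub

open Fermat.Agent.GH.N0 Fermat.Agent.GS.ClosureW Fermat.Agent.GZ.LocR.PushFibre

/-- the action on `M` twisted by the cochain `x`. -/
def twist {G M : Type*} [Add M] (actM : G → M → M) (x : G → M) : G → M → M :=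
  fun σ w => actM σ w + x σ

@[simp]
theorem twist_apply {G M : Type*} [Add M] (actM : G → M → M) (x : G → M) (σ : G) (w : M) :
    twist actM x σ w = actM σ w + x σ := rfl

section Def

variable {R : Type*} [CommRing R] {K : Type*} [Field K] [Algebra R K]
variable {G : Type*} [Group G] [MulSemiringAction G K]
variable {M : Type*} [AddCommGroup M]

/-- **flat cochain**: the `G`-set `M` with the action twisted by `x` has a torsor order relative to
`HM`. -/
def IsFlat (actM : G → M → M) (HM : Subalgebra R (M → K)) (x : G → M) : Prop :=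
  HasTorsorOrder (twist actM x) HM

end Def

section Flat

variable {R : Type*} [CommRing R] [IsDomain R] [IsPrincipalIdealRing R]
variable {F : Type*} [Field F] [Algebra R F] [IsFractionRing R F]
variable {K : Type*} [Field K] [Algebra F K] [Algebra R K] [IsScalarTower R F K]
variable {G : Type*} [Group G] [MulSemiringAction G K]
variable {M : Type*} [AddCommGroup M] [Finite M]
variable {actM : G → M → M} {HM : Subalgebra R (M → K)}

/-- an additive action commutes with negation. -/
theorem act_neg (h : IsStableOrder F actM HM)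
    (hadd : ∀ σ m m', actM σ (m + m') = actM σ m + actM σ m') (σ : G) (m : M) :
    actM σ (-m) = -actM σ m := by
  have h1 : actM σ m + actM σ (-m) = 0 := by rw [← hadd, add_neg_cancel, h.act_zero]
  exact eq_neg_of_add_eq_zero_right h1

/-- the pair (order on the group, torsor order on the twisted set). -/
theorem pair_of_torsorOrder (h : IsStableOrder F actM HM)
    (hadd : ∀ σ m m', actM σ (m + m') = actM σ m + actM σ m') {x : G → M}
    {HX : Subalgebra R (M → K)} (hX : IsStableTorsorOrder (twist actM x) HM HX) :
    IsTorsorOrderPair F actM (twist actM x) HM HX :=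
  ⟨h, hX, fun σ m w => by
    show actM σ (m + w) + x σ = actM σ m + (actM σ w + x σ)
    rw [hadd, add_assoc]⟩

/-- **(ZERO)** the zero cochain is flat: `HX = HM`. -/
theorem isFlat_zero (h : IsStableOrder F actM HM) : IsFlat actM HM (0 : G → M) := by
  refine ⟨HM, ?_, h.fg, h.sep, ?_, ?_⟩
  · intro f hf σ w
    show f (actM σ w + 0) = _
    rw [add_zero, h.equivariant f hf]
  · intro f hf
    obtain ⟨n, a, b, hab⟩ := h.delta f hf
    exact ⟨n, a, b, fun m w => hab m w⟩
  · intro f hf
    obtain ⟨n, a, b, hab⟩ := h.delta f hf
    refine ⟨n, a, fun i => ⟨fun w => (b i : M → K) (-w), h.neg_pull_mem _ (b i).2⟩, ?_⟩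
    intro w w'
    show f (w - w') = _
    rw [sub_eq_add_neg, hab]

omit [IsDomain R] [IsPrincipalIdealRing R] [Finite M] in
theorem map_precomp_id (HM : Subalgebra R (M → K)) :
    HM.map (precomp R K (AddMonoidHom.id M)) = HM := by
  ext f
  constructor
  · rintro ⟨g, hg, rfl⟩
    exact hg
  · intro hf
    exact ⟨f, hf, rfl⟩

theorem map_precomp_neg (h : IsStableOrder F actM HM) :
    HM.map (precomp R K (-AddMonoidHom.id M)) = HM := by
  ext f
  constructor
  · rintro ⟨g, hg, rfl⟩
    exact h.neg_pull_mem g hg
  · intro hf
    refine ⟨fun w => f (-w), h.neg_pull_mem f hf, ?_⟩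
    funext w
    show f (- -w) = f w
    rw [neg_neg]

/-- **cohomologous cochains are flat together**: `HX ∘ (· + w₀)`. -/
theorem IsFlat.translate (h : IsStableOrder F actM HM)
    (hadd : ∀ σ m m', actM σ (m + m') = actM σ m + actM σ m') {x : G → M}
    (hx : IsFlat actM HM x) (w₀ : M) :
    IsFlat actM HM (fun σ => x σ + (actM σ w₀ - w₀)) := by
  obtain ⟨HX, hX⟩ := hx
  have P := pair_of_torsorOrder h hadd hX
  have Q := IsTorsorOrderPair.restrict' (actM' := actM)
    (actX' := twist actM (fun σ => x σ + (actM σ w₀ - w₀))) P (AddMonoidHom.id M)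
    (fun a b hab => hab) (fun w => w + w₀)
    (by
      intro n w
      show n + w + w₀ = n + (w + w₀)
      rw [add_assoc])
    (fun σ n => rfl)
    (by
      intro σ w
      show actM σ w + (x σ + (actM σ w₀ - w₀)) + w₀ = actM σ (w + w₀) + x σ
      rw [hadd]
      abel)
  rw [map_precomp_id] at Q
  exact ⟨_, Q.torsor⟩

/-- **(COB)** coboundaries are flat. -/
theorem isFlat_dCob (h : IsStableOrder F actM HM)
    (hadd : ∀ σ m m', actM σ (m + m') = actM σ m + actM σ m') (w₀ : M) :
    IsFlat actM HM (fun σ => actM σ w₀ - w₀) := by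
  have := (isFlat_zero h).translate h hadd w₀
  have he : (fun σ => (0 : G → M) σ + (actM σ w₀ - w₀)) = fun σ => actM σ w₀ - w₀ := by
    funext σ
    rw [Pi.zero_apply, zero_add]
  rwa [he] at this

/-- **(NEG)** the opposite of a flat cochain is flat: `HX ∘ neg`. -/
theorem IsFlat.neg (h : IsStableOrder F actM HM)
    (hadd : ∀ σ m m', actM σ (m + m') = actM σ m + actM σ m') {x : G → M}
    (hx : IsFlat actM HM x) : IsFlat actM HM (-x) := by
  obtain ⟨HX, hX⟩ := hx
  have P := pair_of_torsorOrder h hadd hX
  have Q := IsTorsorOrderPair.restrict' (actM' := actM) (actX' := twist actM (-x)) P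
    (-AddMonoidHom.id M)
    (fun a b hab => neg_injective hab) (fun w => -w)
    (by
      intro n w
      show -(n + w) = -n + -w
      rw [neg_add])
    (by
      intro σ n
      show -(actM σ n) = actM σ (-n)
      rw [act_neg h hadd])
    (by
      intro σ w
      show -(actM σ w + -x σ) = actM σ (-w) + x σ
      rw [act_neg h hadd]
      abel)
  rw [map_precomp_neg h] at Q
  exact ⟨_, Q.torsor⟩

/-- the order of the sum map: `{g | g ∘ (+) ∈ HM ⊗ HM} = HM`. -/
theorem comap_add_T2 (h : IsStableOrder F actM HM) (π : M × M →+ M)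
    (hπ : ∀ q : M × M, π q = q.1 + q.2) :
    (T2 HM HM).comap (precomp R K π) = HM := by
  apply le_antisymm
  · intro g hg
    rw [Subalgebra.mem_comap, mem_T2_iff] at hg
    obtain ⟨ι, _, a, b, hab⟩ := hg
    have hb : ∀ i, ∃ r : R, algebraMap R K r = (b i : M → K) 0 :=
      fun i => h.exists_algebraMap_eq_apply_zero (b i)
    choose r hr using hb
    have : g = ∑ i, r i • (a i : M → K) := by
      funext x
      have h1 := hab x 0
      rw [precomp_apply, hπ] at h1
      simp only [add_zero] at h1
      rw [h1, Finset.sum_apply]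
      refine Finset.sum_congr rfl fun i _ => ?_
      rw [Pi.smul_apply, Algebra.smul_def, hr, mul_comm]
    rw [this]
    exact Subalgebra.sum_mem _ fun i _ => Subalgebra.smul_mem _ (a i).2 _
  · intro f hf
    rw [Subalgebra.mem_comap, mem_T2_iff, rep2_iff_fin]
    obtain ⟨n, a, b, hab⟩ := h.delta f hf
    refine ⟨n, a, b, fun x y => ?_⟩
    rw [precomp_apply, hπ]
    exact hab x y

/-- **(ADD)** the sum of two flat cochains is flat (Baer sum): product pair + push-out along `+`. -/
theorem IsFlat.add [CharZero K] (h : IsStableOrder F actM HM)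
    (hadd : ∀ σ m m', actM σ (m + m') = actM σ m + actM σ m') {x y : G → M}
    (hx : IsFlat actM HM x) (hy : IsFlat actM HM y) : IsFlat actM HM (x + y) := by
  obtain ⟨HX₁, h1⟩ := hx
  obtain ⟨HX₂, h2⟩ := hy
  have P := isTorsorOrderPair_prod (pair_of_torsorOrder h hadd h1) (pair_of_torsorOrder h hadd h2)
  set π : M × M →+ M := AddMonoidHom.coprod (AddMonoidHom.id M) (AddMonoidHom.id M) with hπdef
  have hπ : ∀ q : M × M, π q = q.1 + q.2 := fun q => rfl
  have hπ' : ∀ a b : M, π (a, b) = a + b := fun a b => rfl
  have hsurj : Function.Surjective π := fun m => ⟨(m, 0), by rw [hπ]; exact add_zero m⟩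
  have Q := IsTorsorOrderPair.quot (actM'' := actM) (actX'' := twist actM (x + y)) P π hsurj
    (fun q => π q)
    (by
      intro m q
      show π (m.1 + q.1, m.2 + q.2) = π m + π q
      rw [hπ', hπ, hπ]
      abel)
    (by
      intro σ m
      show π (actM σ m.1, actM σ m.2) = actM σ (π m)
      rw [hπ', hπ, hadd])
    (by
      intro σ q
      show π (actM σ q.1 + x σ, actM σ q.2 + y σ) = actM σ (π q) + (x σ + y σ)
      rw [hπ', hπ, hadd]
      abel)
  rw [comap_add_T2 h π hπ] at Q
  exact ⟨_, Q.torsor⟩

/-- **the flat cochains, as a subgroup of `G → M`.** -/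
def flatSub [CharZero K] (h : IsStableOrder F actM HM)
    (hadd : ∀ σ m m', actM σ (m + m') = actM σ m + actM σ m') : AddSubgroup (G → M) where
  carrier := {x | IsFlat actM HM x}
  zero_mem' := isFlat_zero h
  add_mem' := fun hx hy => IsFlat.add h hadd hx hy
  neg_mem' := fun hx => IsFlat.neg h hadd hx

theorem mem_flatSub [CharZero K] (h : IsStableOrder F actM HM)
    (hadd : ∀ σ m m', actM σ (m + m') = actM σ m + actM σ m') {x : G → M} :
    x ∈ flatSub h hadd ↔ IsFlat actM HM x := Iff.rfl

theorem dCob_mem_flatSub [CharZero K] (h : IsStableOrder F actM HM)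
    (hadd : ∀ σ m m', actM σ (m + m') = actM σ m + actM σ m') (w₀ : M) :
    (fun σ => actM σ w₀ - w₀) ∈ flatSub h hadd :=
  isFlat_dCob h hadd w₀

end Flat

section Functoriality

variable {R : Type*} [CommRing R] [IsDomain R] [IsPrincipalIdealRing R]
variable {F : Type*} [Field F] [Algebra R F] [IsFractionRing R F]
variable {K : Type*} [Field K] [Algebra F K] [Algebra R K] [IsScalarTower R F K]
variable {G : Type*} [Group G] [MulSemiringAction G K]
variable {M : Type*} [AddCommGroup M] [Finite M]
variable {N : Type*} [AddCommGroup N] [Finite N]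
variable {actM : G → M → M} {actN : G → N → N} {HM : Subalgebra R (M → K)}

/-- **(b) FIBRE, cochain form**: if `j ∘ x'` is flat for `HM` (`j : N ↪ M` equivariant) then `x'` is
flat for the restricted order `HM ∘ j`.  (Preimage condition of a marked short exact sequence.) -/
theorem isFlat_of_comp_injective (h : IsStableOrder F actM HM)
    (hadd : ∀ σ m m', actM σ (m + m') = actM σ m + actM σ m')
    (j : N →+ M) (hj : Function.Injective j)
    (hjeq : ∀ (σ : G) (n : N), j (actN σ n) = actM σ (j n)) {x' : G → N}
    (hx : IsFlat actM HM (fun σ => j (x' σ))) :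
    IsFlat actN (HM.map (precomp R K j)) x' := by
  obtain ⟨HX, hX⟩ := hx
  have P := pair_of_torsorOrder h hadd hX
  have Q := IsTorsorOrderPair.restrict' (actM' := actN) (actX' := twist actN x') P j hj
    (fun w => j w)
    (by
      intro n w
      show j (n + w) = j n + j w
      rw [map_add])
    hjeq
    (by
      intro σ w
      show j (actN σ w + x' σ) = actM σ (j w) + j (x' σ)
      rw [map_add, hjeq])
  exact ⟨_, Q.torsor⟩

/-- **(a) PUSH-OUT, cochain form**: if `x` is flat for `HM` and `π : M ↠ N` is equivariant then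
`π ∘ x` is flat for the quotient order `{g | g ∘ π ∈ HM}`.  (Image condition of a marked short
exact sequence.) -/
theorem IsFlat.comp_surjective [CharZero K] (h : IsStableOrder F actM HM)
    (hadd : ∀ σ m m', actM σ (m + m') = actM σ m + actM σ m')
    (π : M →+ N) (hπ : Function.Surjective π)
    (hπeq : ∀ (σ : G) (m : M), π (actM σ m) = actN σ (π m)) {x : G → M}
    (hx : IsFlat actM HM x) :
    IsFlat actN (HM.comap (precomp R K π)) (fun σ => π (x σ)) := by
  obtain ⟨HX, hX⟩ := hx
  have P := pair_of_torsorOrder h hadd hX
  have Q := IsTorsorOrderPair.quot (actM'' := actN) (actX'' := twist actN (fun σ => π (x σ))) P π hπ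
    (fun w => π w)
    (by
      intro m w
      show π (m + w) = π m + π w
      rw [map_add])
    hπeq
    (by
      intro σ w
      show π (actM σ w + x σ) = actN σ (π w) + π (x σ)
      rw [map_add, hπeq])
  exact ⟨_, Q.torsor⟩

end Functoriality

end Fermat.Agent.GZ.LocR.FlatSub
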