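/-
GATE-Z (S15) / (LOC-r), node FLATSUB, part 3 (helper94): **the flat condition in the vocabulary of
`GZ/Dev/Marked`** (helper90): `M` a finite `G`-module (`DistribMulAction G M`), `HM` a stable
function order for the action `σ • m`.

* `flatX h : AddSubgroup (G → M)` — the flat cochains, a candidate for (a factor of) `Marked.X`;
* `dCob_mem_flatX` — it contains the coboundaries `Dev.dCob G w` (`Marked.dCob_mem`);
* `mem_flatX_of_comp` — PREIMAGE condition `MarkedSES.mem_X'` (one direction: `ι ∘ x' ∈ flatX(HM)`
  ⟹ `x' ∈ flatX(HM ∘ ι)`);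
* `comp_mem_flatX` — IMAGE condition `MarkedSES.map_X''` (`x ∈ flatX(HM)` ⟹
  `π ∘ x ∈ flatX({g | g ∘ π ∈ HM})`).
-/
import Mathlib
import Fermat.Agent.GS.ClosureW.Quot
import Fermat.Agent.GZ.Dev.Marked
import Fermat.Agent.GZ.LocR.FlatSub.Flat

set_option autoImplicit false
set_option linter.unusedSectionVars false
set_option linter.unusedVariables false

namespace Fermat.Agent.GZ.LocR.FlatSub

open Fermat.Agent.GH.N0 Fermat.Agent.GS.ClosureW Fermat.Agent.GZ.LocR.PushFibre

section Smul

variable {R : Type*} [CommRing R] [IsDomain R] [IsPrincipalIdealRing R]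
variable {F : Type*} [Field F] [Algebra R F] [IsFractionRing R F]
variable {K : Type*} [Field K] [Algebra F K] [Algebra R K] [IsScalarTower R F K] [CharZero K]
variable {G : Type*} [Group G] [MulSemiringAction G K]
variable {M : Type*} [AddCommGroup M] [Finite M] [DistribMulAction G M]
variable {N : Type*} [AddCommGroup N] [Finite N] [DistribMulAction G N]
variable {HM : Subalgebra R (M → K)}

/-- the action `σ • m` as a family of maps. -/
def smulAct (G M : Type*) [SMul G M] : G → M → M := fun σ m => σ • m

@[simp]
theorem smulAct_apply (σ : G) (m : M) : smulAct G M σ m = σ • m := rfl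

/-- **the flat cochains of a finite `G`-module**, relative to the stable order `HM`. -/
def flatX (h : IsStableOrder F (smulAct G M) HM) : AddSubgroup (G → M) :=
  flatSub h (fun σ m m' => smul_add σ m m')

theorem mem_flatX (h : IsStableOrder F (smulAct G M) HM) {x : G → M} :
    x ∈ flatX h ↔ IsFlat (smulAct G M) HM x := Iff.rfl

/-- coboundaries are flat. -/
theorem dCob_mem_flatX (h : IsStableOrder F (smulAct G M) HM) (w : M) :
    Fermat.Agent.GZ.Dev.dCob G w ∈ flatX h :=
  dCob_mem_flatSub h _ w

/-- flatness only depends on the cohomology class. -/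
theorem add_dCob_mem_flatX_iff (h : IsStableOrder F (smulAct G M) HM) (x : G → M) (w : M) :
    x + Fermat.Agent.GZ.Dev.dCob G w ∈ flatX h ↔ x ∈ flatX h :=
  (flatX h).add_mem_cancel_right (dCob_mem_flatX h w)

/-- the restricted order along an equivariant injection. -/
theorem isStableOrder_map_smul (h : IsStableOrder F (smulAct G M) HM) (j : N →+ M)
    (hj : Function.Injective j) (hjeq : ∀ (σ : G) (n : N), j (σ • n) = σ • j n) :
    IsStableOrder F (smulAct G N) (HM.map (precomp R K j)) :=
  isStableOrder_map h j hj hjeq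

/-- the quotient order along an equivariant surjection. -/
theorem isStableOrder_comap_smul (h : IsStableOrder F (smulAct G M) HM) (π : M →+ N)
    (hπ : Function.Surjective π) (hπeq : ∀ (σ : G) (m : M), π (σ • m) = σ • π m) :
    IsStableOrder F (smulAct G N) (HM.comap (precomp R K π)) :=
  isStableOrder_comap h π hπ hπeq

/-- **PREIMAGE condition** (`MarkedSES.mem_X'`, the nontrivial direction). -/
theorem mem_flatX_of_comp (h : IsStableOrder F (smulAct G M) HM) (j : N →+ M)
    (hj : Function.Injective j) (hjeq : ∀ (σ : G) (n : N), j (σ • n) = σ • j n) {x' : G → N}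
    (hx : (fun σ => j (x' σ)) ∈ flatX h) :
    x' ∈ flatX (isStableOrder_map_smul h j hj hjeq) :=
  isFlat_of_comp_injective h (fun σ m m' => smul_add σ m m') j hj hjeq hx

/-- **IMAGE condition** (`MarkedSES.map_X''`). -/
theorem comp_mem_flatX (h : IsStableOrder F (smulAct G M) HM) (π : M →+ N)
    (hπ : Function.Surjective π) (hπeq : ∀ (σ : G) (m : M), π (σ • m) = σ • π m) {x : G → M}
    (hx : x ∈ flatX h) :
    (fun σ => π (x σ)) ∈ flatX (isStableOrder_comap_smul h π hπ hπeq) :=
  IsFlat.comp_surjective h (fun σ m m' => smul_add σ m m') π hπ hπeq hx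

end Smul

end Fermat.Agent.GZ.LocR.FlatSub
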