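/-
GATE-Z (S15) / (LOC-r), node GZ-LOCR-PIECE (helper94): **the flat condition on the pieces of a flag**
— helper90's `GZ/Dev/Flag` vocabulary (`StableSub`, `Marked.piece`) × `GZ/LocR/FlatSub`.

`W` a finite `G`-module with a stable function order `HW`, `𝒱 : Marked D I W` a marking whose
admissible cochains are flat (`𝒱.X ≤ flatX h`), `T ≤ S` stable subgroups.  The subquotient
`S / T` carries the order `pieceOrder HW T S` (restrict to `S`, then take the `T`-invariants), and
the induced admissible cochains of the piece are flat for it: `(𝒱.piece T S).X ≤ flatX _`.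
-/
import Mathlib
import Fermat.Agent.GZ.Dev.Flag
import Fermat.Agent.GZ.LocR.FlatSub.Smul

set_option autoImplicit false
set_option linter.unusedSectionVars false
set_option linter.unusedVariables false

namespace Fermat.Agent.GZ.LocR.FlatSub

open Fermat.Agent.GH.N0 Fermat.Agent.GS.ClosureW Fermat.Agent.GZ.Dev

section Piece

variable {R : Type*} [CommRing R] [IsDomain R] [IsPrincipalIdealRing R]
variable {F : Type*} [Field F] [Algebra R F] [IsFractionRing R F]
variable {K : Type*} [Field K] [Algebra F K] [Algebra R K] [IsScalarTower R F K] [CharZero K]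
variable {G : Type*} [Group G] [MulSemiringAction G K] {D I : Subgroup G}
variable {W : Type*} [AddCommGroup W] [Finite W] [DistribMulAction G W]
variable {HW : Subalgebra R (W → K)}

/-- the restricted order on a stable subgroup. -/
def subOrder (HW : Subalgebra R (W → K)) (S : StableSub G W) : Subalgebra R (↥S.U → K) :=
  HW.map (precomp R K S.U.subtype)

/-- the order of the subquotient `S / T`: restrict to `S`, then take the `T`-invariants. -/
def pieceOrder (HW : Subalgebra R (W → K)) (T S : StableSub G W) :
    Subalgebra R ((↥S.U ⧸ (T.sub S).U) → K) :=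
  (subOrder HW S).comap (precomp R K (QuotientAddGroup.mk' (T.sub S).U))

theorem isStableOrder_sub (h : IsStableOrder F (smulAct G W) HW) (S : StableSub G W) :
    IsStableOrder F (smulAct G ↥S.U) (subOrder HW S) :=
  isStableOrder_map_smul h S.U.subtype Subtype.val_injective (fun _ _ => rfl)

theorem isStableOrder_piece (h : IsStableOrder F (smulAct G W) HW) (T S : StableSub G W) :
    IsStableOrder F (smulAct G (↥S.U ⧸ (T.sub S).U)) (pieceOrder HW T S) :=
  isStableOrder_comap_smul (isStableOrder_sub h S) (QuotientAddGroup.mk' (T.sub S).U)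
    (QuotientAddGroup.mk'_surjective _) (fun _ _ => rfl)

/-- the admissible cochains of the restriction to a stable subgroup are flat. -/
theorem restrict_X_le_flatX (𝒱 : Marked D I W) (h : IsStableOrder F (smulAct G W) HW)
    (hX : 𝒱.X ≤ flatX h) (S : StableSub G W) :
    (𝒱.restrict S).X ≤ flatX (isStableOrder_sub h S) := by
  intro x hx
  have hx' : (fun σ => ((x σ : ↥S.U) : W)) ∈ 𝒱.X := (𝒱.mem_restrict_X S x).mp hx
  exact mem_flatX_of_comp h S.U.subtype Subtype.val_injective (fun _ _ => rfl) (hX hx')

/-- **the admissible cochains of a piece of a flag are flat** for the piece order. -/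
theorem piece_X_le_flatX (𝒱 : Marked D I W) (h : IsStableOrder F (smulAct G W) HW)
    (hX : 𝒱.X ≤ flatX h) (T S : StableSub G W) :
    (𝒱.piece T S).X ≤ flatX (isStableOrder_piece h T S) := by
  intro y hy
  obtain ⟨x, hx, rfl⟩ := (𝒱.mem_piece_X T S y).mp hy
  have h1 : x ∈ flatX (isStableOrder_sub h S) :=
    mem_flatX_of_comp h S.U.subtype Subtype.val_injective (fun _ _ => rfl) (hX hx)
  exact comp_mem_flatX (isStableOrder_sub h S) (QuotientAddGroup.mk' (T.sub S).U)
    (QuotientAddGroup.mk'_surjective _) (fun _ _ => rfl) h1

end Piece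

end Fermat.Agent.GZ.LocR.FlatSub
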