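/-
GATE-Z (S15) / (LOC-r), node GZ-LOCR-EVAL (helper94): **the rank-one evaluation of the flat
condition, in twist form** — helper14's `GZ/LocR/RankOne` (item (c) of the count) applied to
`IsFlat` (`GZ/LocR/FlatSub/Flat`).

`P` a finite `G`-module (a rank-one piece), `HP` its function order, `x : G → P` a flat cochain,
`A ⊆ K` a valuation subring containing the image of `R`.

* ÉTALE shape (`HP` contains the indicators of the points of `P`): every `σ` acting trivially on
  `A / 𝔪_A` (inertia) satisfies `x σ = 0` and acts trivially on `P` — the class of `x` is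
  UNRAMIFIED at `A`.
* MULTIPLICATIVE shape (`HP ⊆ Σ_j R χ^j ∋ χ`, `χ : P → K^×` an equivariant faithful character): if
  `β ≠ 0` is a Hilbert-90 datum for the cocycle `χ ∘ x` (`χ (x σ) * β = σ • β`), the Kummer class
  `β ^ N` is a UNIT class at `A`: `∃ c ≠ 0` fixed by `G` with `(c β)^N ∈ A^×`.
-/
import Mathlib
import Fermat.Agent.GZ.LocR.RankOne
import Fermat.Agent.GZ.LocR.FlatSub.Flat

set_option autoImplicit false
set_option linter.unusedSectionVars false
set_option linter.unusedVariables false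

namespace Fermat.Agent.GZ.LocR.FlatSub

open Fermat.Agent.GZ.LocR

section Eval

variable {R : Type*} [CommRing R] {K : Type*} [Field K] [Algebra R K]
variable {G : Type*} [Group G] [MulSemiringAction G K]
variable {P : Type*} [AddCommGroup P]
variable {actP : G → P → P} {HP : Subalgebra R (P → K)}

open Classical in
/-- **étale shape: a flat cochain is unramified** (twist form of
`RankOne.actX_eq_of_indicator_mem'`): the twisted action of `σ` is trivial. -/
theorem IsFlat.twist_eq_of_indicator_mem {x : G → P} (hx : IsFlat actP HP x)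
    (A : ValuationSubring K) (hRA : ∀ r : R, algebraMap R K r ∈ A)
    (hδ : ∀ j : P, (fun m : P => if m = j then (1 : K) else 0) ∈ HP)
    (σ : G) (hσ : ∀ a ∈ A, σ • a - a ∈ A.nonunits) (w : P) : actP σ w + x σ = w := by
  obtain ⟨HX, hX⟩ := hx
  exact RankOne.actX_eq_of_indicator_mem' hX A hRA hδ σ hσ w

open Classical in
/-- étale shape: `x σ = 0` for `σ` in the inertia. -/
theorem IsFlat.apply_eq_zero_of_indicator_mem {x : G → P} (hx : IsFlat actP HP x)
    (hact0 : ∀ σ, actP σ 0 = 0)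
    (A : ValuationSubring K) (hRA : ∀ r : R, algebraMap R K r ∈ A)
    (hδ : ∀ j : P, (fun m : P => if m = j then (1 : K) else 0) ∈ HP)
    (σ : G) (hσ : ∀ a ∈ A, σ • a - a ∈ A.nonunits) : x σ = 0 := by
  have h := hx.twist_eq_of_indicator_mem A hRA hδ σ hσ 0
  rwa [hact0, zero_add] at h

open Classical in
/-- étale shape: the inertia acts trivially on the piece. -/
theorem IsFlat.act_eq_of_indicator_mem {x : G → P} (hx : IsFlat actP HP x)
    (hact0 : ∀ σ, actP σ 0 = 0)
    (A : ValuationSubring K) (hRA : ∀ r : R, algebraMap R K r ∈ A)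
    (hδ : ∀ j : P, (fun m : P => if m = j then (1 : K) else 0) ∈ HP)
    (σ : G) (hσ : ∀ a ∈ A, σ • a - a ∈ A.nonunits) (w : P) : actP σ w = w := by
  have h := hx.twist_eq_of_indicator_mem A hRA hδ σ hσ w
  rwa [hx.apply_eq_zero_of_indicator_mem hact0 A hRA hδ σ hσ, add_zero] at h

open Multiplicative in
/-- **multiplicative shape: the Kummer class of a flat cochain is a unit class** (twist form of
`RankOne.exists_unit_class'`, Kummer coordinate `u w = χ w * β`). -/
theorem IsFlat.exists_unit_class {x : G → P} (hx : IsFlat actP HP x)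
    (A : ValuationSubring K) (hRA : ∀ r : R, algebraMap R K r ∈ A)
    (χ : Multiplicative P →* K) (N : ℕ) (hN : 2 ≤ N) (hP : ∀ m : P, N • m = 0)
    (m₀ : P) (hζ : IsPrimitiveRoot (χ (ofAdd m₀)) N)
    (hHP : ∀ f ∈ HP, ∃ c : Fin N → R, ∀ m : P,
      f m = ∑ j : Fin N, algebraMap R K (c j) * χ (ofAdd m) ^ (j : ℕ))
    (hχ_mem : (fun m : P => χ (ofAdd m)) ∈ HP)
    (hχeq : ∀ (σ : G) (m : P), χ (ofAdd (actP σ m)) = σ • χ (ofAdd m))
    (β : K) (hβ : β ≠ 0) (hβx : ∀ σ : G, χ (ofAdd (x σ)) * β = σ • β) :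
    ∃ c : K, c ≠ 0 ∧ (∀ σ : G, σ • c = c) ∧ (c * β) ^ N ∈ A ∧ ((c * β) ^ N)⁻¹ ∈ A := by
  obtain ⟨HX, hX⟩ := hx
  have hu0 : χ (ofAdd (0 : P)) * β = β := by rw [ofAdd_zero, map_one, one_mul]
  obtain ⟨c, hc, hfix, h1, h2⟩ := RankOne.exists_unit_class' (χ := χ) (N := N) hX A hRA hN hP m₀ hζ hHP hχ_mem
    (fun w : P => χ (ofAdd w) * β)
    (by
      intro m w
      show χ (ofAdd (m + w)) * β = χ (ofAdd m) * (χ (ofAdd w) * β)
      rw [ofAdd_add, map_mul, mul_assoc])
    (by
      intro σ w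
      show χ (ofAdd (actP σ w + x σ)) * β = σ • (χ (ofAdd w) * β)
      rw [ofAdd_add, map_mul, mul_assoc, hβx, hχeq, smul_mul'])
    (0 : P) (by rw [hu0]; exact hβ)
  rw [hu0] at h1 h2
  exact ⟨c, hc, hfix, h1, h2⟩

end Eval

end Fermat.Agent.GZ.LocR.FlatSub
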