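/-
GATE-Z (S15) / (LOC-r), node FLATSUB, part 4 (helper94): **flat cochains are functorial for morphisms
of function orders** (answer to helper79 5983: Hecke-stability of the flat condition).

`T : M →+ N` an equivariant additive map between finite `G`-modules with stable orders `HM`, `HN`
such that `f ∘ T ∈ HM` for all `f ∈ HN` (`T` is a morphism of the group schemes `Spec HM → Spec HN`).
Then `x` flat for `HM` ⟹ `T ∘ x` flat for `HN` (push-forward of torsors = contracted product
`X ×^M N`: product pair on `(M × N, X × N)` + push-out along `(m, n) ↦ T m + n`).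

Special cases: `HN = {g | g ∘ π ∈ HM}` (`IsFlat.comp_surjective`), and `T` an endomorphism of `M`
with `HM` `T`-stable (`IsFlat.comp_endo`: e.g. a Hecke operator extending to the order).
-/
import Mathlib
import Fermat.Agent.GS.ClosureW.Quot
import Fermat.Agent.GZ.LocR.FlatSub.Flat

set_option autoImplicit false
set_option linter.unusedSectionVars false
set_option linter.unusedVariables false

namespace Fermat.Agent.GZ.LocR.FlatSub

open Fermat.Agent.GH.N0 Fermat.Agent.GS.ClosureW Fermat.Agent.GZ.LocR.PushFibre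

section Hom

variable {R : Type*} [CommRing R] [IsDomain R] [IsPrincipalIdealRing R]
variable {F : Type*} [Field F] [Algebra R F] [IsFractionRing R F]
variable {K : Type*} [Field K] [Algebra F K] [Algebra R K] [IsScalarTower R F K]
variable {G : Type*} [Group G] [MulSemiringAction G K]
variable {M : Type*} [AddCommGroup M] [Finite M]
variable {N : Type*} [AddCommGroup N] [Finite N]
variable {actM : G → M → M} {actN : G → N → N}
variable {HM : Subalgebra R (M → K)} {HN : Subalgebra R (N → K)}

/-- the order of `(m, n) ↦ T m + n`: `{g | g ∘ (T + id) ∈ HM ⊗ HN} = HN` when `HN ∘ T ⊆ HM`. -/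
theorem comap_hom_add_T2 (hM : IsStableOrder F actM HM) (hN : IsStableOrder F actN HN)
    (T : M →+ N) (hT : ∀ f ∈ HN, (fun m => f (T m)) ∈ HM) (π : M × N →+ N)
    (hπ : ∀ q : M × N, π q = T q.1 + q.2) :
    (T2 HM HN).comap (precomp R K π) = HN := by
  apply le_antisymm
  · intro g hg
    rw [Subalgebra.mem_comap, mem_T2_iff] at hg
    obtain ⟨ι, _, a, b, hab⟩ := hg
    have ha : ∀ i, ∃ r : R, algebraMap R K r = (a i : M → K) 0 :=
      fun i => hM.exists_algebraMap_eq_apply_zero (a i)
    choose r hr using ha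
    have : g = ∑ i, r i • (b i : N → K) := by
      funext n
      have h1 := hab 0 n
      rw [precomp_apply, hπ] at h1
      simp only [map_zero, zero_add] at h1
      rw [h1, Finset.sum_apply]
      refine Finset.sum_congr rfl fun i _ => ?_
      rw [Pi.smul_apply, Algebra.smul_def, hr]
    rw [this]
    exact Subalgebra.sum_mem _ fun i _ => Subalgebra.smul_mem _ (b i).2 _
  · intro f hf
    rw [Subalgebra.mem_comap, mem_T2_iff]
    obtain ⟨n, a, b, hab⟩ := hN.delta f hf
    refine ⟨Fin n, inferInstance, fun i => ⟨fun m => (a i : N → K) (T m), hT _ (a i).2⟩, b, ?_⟩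
    intro x y
    rw [precomp_apply, hπ]
    exact hab (T x) y

/-- **push-forward of flat cochains along a morphism of orders.** -/
theorem IsFlat.comp_hom [CharZero K] (hM : IsStableOrder F actM HM) (hN : IsStableOrder F actN HN)
    (haddM : ∀ σ m m', actM σ (m + m') = actM σ m + actM σ m')
    (haddN : ∀ σ n n', actN σ (n + n') = actN σ n + actN σ n')
    (T : M →+ N) (hTeq : ∀ (σ : G) (m : M), T (actM σ m) = actN σ (T m))
    (hT : ∀ f ∈ HN, (fun m => f (T m)) ∈ HM) {x : G → M} (hx : IsFlat actM HM x) :
    IsFlat actN HN (fun σ => T (x σ)) := by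
  obtain ⟨HX, hX⟩ := hx
  obtain ⟨HY, hY⟩ := isFlat_zero hN
  have P := isTorsorOrderPair_prod (pair_of_torsorOrder hM haddM hX)
    (pair_of_torsorOrder hN haddN hY)
  set π : M × N →+ N := AddMonoidHom.coprod T (AddMonoidHom.id N) with hπdef
  have hπ : ∀ q : M × N, π q = T q.1 + q.2 := fun q => rfl
  have hπ' : ∀ (a : M) (b : N), π (a, b) = T a + b := fun a b => rfl
  have hsurj : Function.Surjective π := fun n => ⟨(0, n), by rw [hπ']; simp⟩
  have Q := IsTorsorOrderPair.quot (actM'' := actN) (actX'' := twist actN (fun σ => T (x σ))) P π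
    hsurj (fun q => π q)
    (by
      intro m q
      show π (m.1 + q.1, m.2 + q.2) = π m + π q
      rw [hπ', hπ, hπ, map_add]
      abel)
    (by
      intro σ m
      show π (actM σ m.1, actN σ m.2) = actN σ (π m)
      rw [hπ', hπ, haddN, hTeq])
    (by
      intro σ q
      show π (actM σ q.1 + x σ, actN σ q.2 + (0 : G → N) σ) = actN σ (π q) + T (x σ)
      rw [hπ', hπ, haddN, map_add, hTeq, Pi.zero_apply]
      abel)
  rw [comap_hom_add_T2 hM hN T hT π hπ] at Q
  exact ⟨_, Q.torsor⟩

/-- **Hecke-stability**: if the order `HM` is stable under the equivariant endomorphism `T`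
(`f ∘ T ∈ HM` for `f ∈ HM`), then `T ∘ x` is flat whenever `x` is. -/
theorem IsFlat.comp_endo [CharZero K] (hM : IsStableOrder F actM HM)
    (hadd : ∀ σ m m', actM σ (m + m') = actM σ m + actM σ m')
    (T : M →+ M) (hTeq : ∀ (σ : G) (m : M), T (actM σ m) = actM σ (T m))
    (hT : ∀ f ∈ HM, (fun m => f (T m)) ∈ HM) {x : G → M} (hx : IsFlat actM HM x) :
    IsFlat actM HM (fun σ => T (x σ)) :=
  IsFlat.comp_hom hM hM hadd hadd T hTeq hT hx

/-- `flatSub` is stable under an equivariant endomorphism preserving the order. -/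
theorem comp_endo_mem_flatSub [CharZero K] (hM : IsStableOrder F actM HM)
    (hadd : ∀ σ m m', actM σ (m + m') = actM σ m + actM σ m')
    (T : M →+ M) (hTeq : ∀ (σ : G) (m : M), T (actM σ m) = actM σ (T m))
    (hT : ∀ f ∈ HM, (fun m => f (T m)) ∈ HM) {x : G → M} (hx : x ∈ flatSub hM hadd) :
    (fun σ => T (x σ)) ∈ flatSub hM hadd :=
  IsFlat.comp_endo hM hadd T hTeq hT hx

end Hom

end Fermat.Agent.GZ.LocR.FlatSub
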